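import Mathlib.AlgebraicGeometry.EllipticCurve.Affine.Point

/-!
The homomorphism on affine points induced by a change of variables.
-/

namespace Fermat.Agent.Small13

open WeierstrassCurve WeierstrassCurve.Affine

variable {F : Type*} [Field F] [DecidableEq F] {W : WeierstrassCurve F}

/-- The `x`-coordinate in the old model. -/
def vcX (C : VariableChange F) (x : F) : F := (C.u : F) ^ 2 * x + C.r

/-- The `y`-coordinate in the old model. -/
def vcY (C : VariableChange F) (x y : F) : F :=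
  (C.u : F) ^ 3 * y + (C.u : F) ^ 2 * C.s * x + C.t

lemma vc_equation (C : VariableChange F) {x y : F} (h : (C • W).toAffine.Equation x y) :
    W.toAffine.Equation (vcX C x) (vcY C x y) := by
  rw [equation_iff] at h ⊢
  have hu : (C.u : F) ≠ 0 := C.u.ne_zero
  simp only [variableChange_def, Units.val_inv_eq_inv_val] at h
  field_simp at h
  simp only [vcX, vcY]
  linear_combination h

lemma vc_nonsingular (hΔ : W.Δ ≠ 0) (C : VariableChange F) {x y : F}
    (h : (C • W).toAffine.Nonsingular x y) :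
    W.toAffine.Nonsingular (vcX C x) (vcY C x y) :=
  (equation_iff_nonsingular_of_Δ_ne_zero hΔ).1 (vc_equation C h.1)

lemma vc_negY (C : VariableChange F) (x y : F) :
    W.toAffine.negY (vcX C x) (vcY C x y) = vcY C x ((C • W).toAffine.negY x y) := by
  have hu : (C.u : F) ≠ 0 := C.u.ne_zero
  simp only [negY, variableChange_def, vcX, vcY, Units.val_inv_eq_inv_val]
  field_simp
  ring

lemma vcX_inj (C : VariableChange F) {a b : F} (h : vcX C a = vcX C b) : a = b := by
  have hu : (C.u : F) ≠ 0 := C.u.ne_zero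
  simpa [vcX, hu] using h

lemma vcY_inj (C : VariableChange F) {x a b : F} (h : vcY C x a = vcY C x b) : a = b := by
  have hu : (C.u : F) ≠ 0 := C.u.ne_zero
  simpa [vcY, hu] using h

lemma vc_slope (C : VariableChange F) {x₁ x₂ y₁ y₂ : F}
    (h₁ : (C • W).toAffine.Equation x₁ y₁) (h₂ : (C • W).toAffine.Equation x₂ y₂)
    (hxy : ¬(x₁ = x₂ ∧ y₁ = (C • W).toAffine.negY x₂ y₂)) :
    W.toAffine.slope (vcX C x₁) (vcX C x₂) (vcY C x₁ y₁) (vcY C x₂ y₂) =
      (C.u : F) * (C • W).toAffine.slope x₁ x₂ y₁ y₂ + C.s := by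
  have hu : (C.u : F) ≠ 0 := C.u.ne_zero
  by_cases hx : x₁ = x₂
  · have hy : y₁ ≠ (C • W).toAffine.negY x₂ y₂ := fun h ↦ hxy ⟨hx, h⟩
    have hyy : y₁ = y₂ := Y_eq_of_Y_ne h₁ h₂ hx hy
    subst hx hyy
    have hy' : vcY C x₁ y₁ ≠ W.toAffine.negY (vcX C x₁) (vcY C x₁ y₁) := by
      rw [vc_negY]; exact fun h ↦ hy (vcY_inj C h)
    rw [slope_of_Y_ne rfl hy, slope_of_Y_ne rfl hy']
    have hD : y₁ - (C • W).toAffine.negY x₁ y₁ ≠ 0 := sub_ne_zero.2 hy
    have hD' : vcY C x₁ y₁ - W.toAffine.negY (vcX C x₁) (vcY C x₁ y₁) =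
        (C.u : F) ^ 3 * (y₁ - (C • W).toAffine.negY x₁ y₁) := by
      rw [vc_negY]; simp only [vcY]; ring
    rw [hD', div_eq_iff (mul_ne_zero (pow_ne_zero 3 hu) hD)]
    obtain ⟨D, hDdef⟩ : ∃ D, D = y₁ - (C • W).toAffine.negY x₁ y₁ := ⟨_, rfl⟩
    rw [← hDdef] at hD ⊢
    rw [add_mul, mul_comm ((C.u : F) ^ 3) D, ← mul_assoc _ D,
      mul_assoc (C.u : F) _ D, div_mul_cancel₀ _ hD, hDdef]
    simp only [vcX, vcY, negY, variableChange_def, Units.val_inv_eq_inv_val]
    field_simp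
    ring
  · have hx' : vcX C x₁ ≠ vcX C x₂ := fun h ↦ hx (vcX_inj C h)
    rw [slope_of_X_ne hx, slope_of_X_ne hx']
    have h12 : x₁ - x₂ ≠ 0 := sub_ne_zero.2 hx
    rw [div_eq_iff (sub_ne_zero.2 hx'), add_mul, mul_div_assoc']
    rw [show vcX C x₁ - vcX C x₂ = (C.u : F) ^ 2 * (x₁ - x₂) by simp only [vcX]; ring]
    simp only [vcY]
    field_simp
    ring

lemma vc_addX (C : VariableChange F) (x₁ x₂ l : F) :
    W.toAffine.addX (vcX C x₁) (vcX C x₂) ((C.u : F) * l + C.s) =
      vcX C ((C • W).toAffine.addX x₁ x₂ l) := by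
  have hu : (C.u : F) ≠ 0 := C.u.ne_zero
  simp only [addX, variableChange_def, vcX, Units.val_inv_eq_inv_val]
  field_simp
  ring

lemma vc_addY (C : VariableChange F) (x₁ x₂ y₁ l : F) :
    W.toAffine.addY (vcX C x₁) (vcX C x₂) (vcY C x₁ y₁) ((C.u : F) * l + C.s) =
      vcY C ((C • W).toAffine.addX x₁ x₂ l) ((C • W).toAffine.addY x₁ x₂ y₁ l) := by
  simp only [addY, negAddY, vc_addX, ← vc_negY]
  congr 1
  simp only [vcX, vcY]
  ring

/-- The map on points, as a function. -/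
def vcFun (hΔ : W.Δ ≠ 0) (C : VariableChange F) :
    (C • W).toAffine.Point → W.toAffine.Point
  | .zero => 0
  | .some _ _ h => .some _ _ (vc_nonsingular hΔ C h)

/-- The homomorphism on points induced by a change of variables. -/
def vcHom (hΔ : W.Δ ≠ 0) (C : VariableChange F) :
    (C • W).toAffine.Point →+ W.toAffine.Point where
  toFun := vcFun hΔ C
  map_zero' := rfl
  map_add' := by
    rintro (_ | ⟨x₁, y₁, h₁⟩) (_ | ⟨x₂, y₂, h₂⟩)
    · rfl
    · rfl
    · rfl
    · by_cases hxy : x₁ = x₂ ∧ y₁ = (C • W).toAffine.negY x₂ y₂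
      · rw [Point.add_of_Y_eq hxy.1 hxy.2]
        simp only [vcFun]
        rw [Point.add_of_Y_eq (congrArg _ hxy.1) (by rw [vc_negY, ← hxy.2, hxy.1])]
      · have hxy' : ¬(vcX C x₁ = vcX C x₂ ∧
            vcY C x₁ y₁ = W.toAffine.negY (vcX C x₂) (vcY C x₂ y₂)) := by
          rintro ⟨hx, hy⟩
          obtain rfl := vcX_inj C hx
          rw [vc_negY] at hy
          exact hxy ⟨rfl, vcY_inj C hy⟩
        rw [Point.add_some hxy]
        simp only [vcFun]
        rw [Point.add_some hxy']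
        simp only [Point.some.injEq]
        rw [vc_slope C h₁.1 h₂.1 hxy]
        exact ⟨(vc_addX C _ _ _).symm, (vc_addY C _ _ _ _).symm⟩

lemma vcHom_some (hΔ : W.Δ ≠ 0) (C : VariableChange F) {x y : F}
    (h : (C • W).toAffine.Nonsingular x y) :
    vcHom hΔ C (.some x y h) = .some (vcX C x) (vcY C x y) (vc_nonsingular hΔ C h) := rfl

lemma vcHom_injective (hΔ : W.Δ ≠ 0) (C : VariableChange F) :
    Function.Injective (vcHom hΔ C) := by
  refine (injective_iff_map_eq_zero _).2 ?_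
  rintro (_ | ⟨x, y, h⟩) he
  · rfl
  · rw [vcHom_some] at he
    exact absurd he (Point.some_ne_zero _)

end Fermat.Agent.Small13
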