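import Fermat.Agent.Small13.Identities

/-!
A point of order 13 in Tate normal form `y² + (1 - c) x y - b y = x³ - b x²` at `(0, 0)`
gives a point of `X₁(13)`.
-/

namespace Fermat.Agent.Small13

open WeierstrassCurve WeierstrassCurve.Affine

variable {F : Type*} [Field F] [DecidableEq F]

/-- Tate normal form. -/
def tateCurve (b c : F) : WeierstrassCurve F := ⟨1 - c, -b, -b, 0, 0⟩

/-- Distinct multiples of a point of order 13, other than opposite ones, have distinct `x`. -/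
lemma x_ne_of_addOrderOf {W : WeierstrassCurve F} {P : W.toAffine.Point}
    (hP : addOrderOf P = 13) (j k : ℕ) {x₁ y₁ x₂ y₂ : F} {h₁ : W.toAffine.Nonsingular x₁ y₁}
    {h₂ : W.toAffine.Nonsingular x₂ y₂} (e₁ : j • P = .some x₁ y₁ h₁)
    (e₂ : k • P = .some x₂ y₂ h₂) (hne : j % 13 ≠ k % 13) (hsum : (j + k) % 13 ≠ 0) :
    x₁ ≠ x₂ := by
  intro hx
  rcases (Point.X_eq_iff (h₁ := h₁) (h₂ := h₂)).1 hx with h | h
  · apply hne
    rw [← hP]
    apply nsmul_injOn_Iio_addOrderOf (x := P)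
    · exact Nat.mod_lt _ (by omega)
    · exact Nat.mod_lt _ (by omega)
    · simp only [mod_addOrderOf_nsmul, e₁, e₂, h]
  · apply hsum
    have h0 : (j + k) • P = 0 := by rw [add_nsmul, e₁, e₂, h, neg_add_cancel]
    have := addOrderOf_dvd_of_nsmul_eq_zero h0
    rw [hP] at this
    omega

lemma nsmul_ne_zero_of_addOrderOf {W : WeierstrassCurve F} {P : W.toAffine.Point}
    (hP : addOrderOf P = 13) {k : ℕ} (hk : k % 13 ≠ 0) : k • P ≠ 0 := fun h0 ↦ by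
  have := addOrderOf_dvd_of_nsmul_eq_zero h0
  rw [hP] at this
  omega

lemma some_add_some_X {W : WeierstrassCurve F} {x₁ x₂ y₁ y₂ : F} (hx : x₁ ≠ x₂)
    {h₁ : W.toAffine.Nonsingular x₁ y₁} {h₂ : W.toAffine.Nonsingular x₂ y₂} {l x₃ y₃ : F}
    (hl : l * (x₁ - x₂) = y₁ - y₂) (hX : x₃ = W.toAffine.addX x₁ x₂ l)
    (hY : y₃ = W.toAffine.addY x₁ x₂ y₁ l) :
    ∃ h₃, (Point.some x₁ y₁ h₁ + Point.some x₂ y₂ h₂ : W.toAffine.Point) =
      .some x₃ y₃ h₃ := by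
  have hs : W.toAffine.slope x₁ x₂ y₁ y₂ = l := by
    rw [slope_of_X_ne hx, div_eq_iff (sub_ne_zero.2 hx), hl]
  have hxy : ¬(x₁ = x₂ ∧ y₁ = W.toAffine.negY x₂ y₂) := fun h ↦ hx h.1
  subst hX hY hs
  exact ⟨nonsingular_add h₁ h₂ hxy, Point.add_some hxy⟩

lemma some_add_self {W : WeierstrassCurve F} {x₁ y₁ : F} (hy : y₁ ≠ W.toAffine.negY x₁ y₁)
    {h₁ : W.toAffine.Nonsingular x₁ y₁} {l x₃ y₃ : F}
    (hl : l * (2 * y₁ + W.a₁ * x₁ + W.a₃) = 3 * x₁ ^ 2 + 2 * W.a₂ * x₁ + W.a₄ - W.a₁ * y₁)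
    (hX : x₃ = W.toAffine.addX x₁ x₁ l) (hY : y₃ = W.toAffine.addY x₁ x₁ y₁ l) :
    ∃ h₃, (Point.some x₁ y₁ h₁ + Point.some x₁ y₁ h₁ : W.toAffine.Point) =
      .some x₃ y₃ h₃ := by
  have hs : W.toAffine.slope x₁ x₁ y₁ y₁ = l := by
    rw [slope_of_Y_ne rfl hy, div_eq_iff (sub_ne_zero.2 hy)]
    simp only [negY]
    linear_combination -hl
  have hxy : ¬(x₁ = x₁ ∧ y₁ = W.toAffine.negY x₁ y₁) := fun h ↦ hy h.2
  subst hX hY hs
  exact ⟨nonsingular_add h₁ h₁ hxy, Point.add_some hxy⟩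

lemma ne_negY_of_two_nsmul {W : WeierstrassCurve F} {x₁ y₁ : F}
    {h₁ : W.toAffine.Nonsingular x₁ y₁}
    (h : (Point.some x₁ y₁ h₁ + Point.some x₁ y₁ h₁ : W.toAffine.Point) ≠ 0) :
    y₁ ≠ W.toAffine.negY x₁ y₁ := fun hy ↦ h (Point.add_of_Y_eq rfl hy)

lemma curve13_of_rel {r s x y c : F} (hr : r = 1 - x * y) (hs : s = 1 - x * y / (y + 1))
    (hy1 : y + 1 ≠ 0) (hx : x ≠ 0) (hy : y ≠ 0) (hr0 : r ≠ 0) (hc : c = s * (r - 1))
    (h : ∀ X4 Y4 w N : F, X4 = r * (r - 1) → Y4 = r ^ 2 * (c - r + 1) →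
      w = 2 * Y4 + (1 - c) * X4 - r * c →
      N = 3 * X4 ^ 2 - 2 * (r * c) * X4 - (1 - c) * Y4 →
      N ^ 2 + (1 - c) * N * w + (r * c - 2 * X4 - r * s * (s - 1)) * w ^ 2 = 0) :
    curve13 x y = 0 := by
  have h' := h _ _ _ _ rfl rfl rfl rfl
  rw [hc, hr, hs] at h'
  field_simp at h'
  have hk : x ^ 5 * y ^ 7 * (1 - x * y) ^ 3 ≠ 0 := by
    rw [← hr]; simp [hx, hy, hr0]
  apply (mul_eq_zero.1 (show x ^ 5 * y ^ 7 * (1 - x * y) ^ 3 * curve13 x y = 0 from ?_)).resolve_left hk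
  simp only [curve13]
  linear_combination -h'

/-- The properties of the point of `X₁(13)` attached to `(b, c)`. -/
structure IsX13Point (b c x y s : F) : Prop where
  curve : curve13 x y = 0
  x_ne : x ≠ 0
  y_ne : y ≠ 0
  x1_ne : x + 1 ≠ 0
  y1_ne : y + 1 ≠ 0
  r_ne : 1 - x * y ≠ 0
  S_ne : x + 1 + y ≠ 0
  s_eq : s = (x + 1 + y) / (x + 1) ^ 2
  c_eq : c = -x * y * s
  b_eq : b = (1 - x * y) * c

/-- The `x`-coordinate on `X₁(13)`. -/
def xI (b c : F) : F := (1 - b / c) * (1 - c ^ 2 / (b - c)) / (c ^ 2 / (b - c) - b / c)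

/-- The `y`-coordinate on `X₁(13)`. -/
def yI (b c : F) : F := (c ^ 2 / (b - c) - b / c) / (1 - c ^ 2 / (b - c))

lemma exists_two_nsmul {b c : F} (hb : b ≠ 0) {h : (tateCurve b c).toAffine.Nonsingular 0 0} :
    ∃ h₂, 2 • (Point.some 0 0 h : (tateCurve b c).toAffine.Point) = .some b (b * c) h₂ := by
  rw [two_nsmul]
  refine some_add_self (l := 0) ?_ ?_ ?_ ?_
  · simp [negY, tateCurve, hb, Ne.symm]
  all_goals simp [tateCurve, addX, addY, negAddY, negY]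
  ring

theorem isX13Point_of_order {b c : F} (hb : b ≠ 0)
    {h : (tateCurve b c).toAffine.Nonsingular 0 0}
    (hP : addOrderOf (Point.some 0 0 h : (tateCurve b c).toAffine.Point) = 13) :
    IsX13Point b c (xI b c) (yI b c) (c ^ 2 / (b - c)) := by
  set P : (tateCurve b c).toAffine.Point := Point.some 0 0 h with hPdef
  have e1 : 1 • P = Point.some 0 0 h := one_nsmul _
  obtain ⟨h2, e2⟩ := exists_two_nsmul (c := c) hb (h := h)
  -- `3P`
  obtain ⟨h3, e3⟩ : ∃ h3, 3 • P = .some c (b - c) h3 := by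
    rw [show (3 : ℕ) = 2 + 1 from rfl, add_nsmul, e2, e1]
    refine some_add_some_X (l := c) hb ?_ ?_ ?_ <;>
      simp [tateCurve, addX, addY, negAddY, negY] <;> ring
  have hc : c ≠ 0 := x_ne_of_addOrderOf hP 3 1 e3 e1 (by norm_num) (by norm_num)
  have hbc : b ≠ c := x_ne_of_addOrderOf hP 2 3 e2 e3 (by norm_num) (by norm_num)
  obtain ⟨r, hr⟩ : ∃ r, r = b / c := ⟨_, rfl⟩
  obtain ⟨s, hs⟩ : ∃ s, s = c ^ 2 / (b - c) := ⟨_, rfl⟩
  have hr1 : r - 1 ≠ 0 := by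
    rw [hr, div_sub_one hc]; exact div_ne_zero (sub_ne_zero.2 hbc) hc
  have hb' : b = r * c := by rw [hr, div_mul_cancel₀ _ hc]
  have hc' : c = s * (r - 1) := by
    rw [hs, hr, div_sub_one hc]; field_simp [sub_ne_zero.2 hbc]
  -- `4P`
  obtain ⟨h4, e4⟩ : ∃ h4, 4 • P = .some (r * (r - 1)) (r ^ 2 * (c - r + 1)) h4 := by
    rw [show (4 : ℕ) = 3 + 1 from rfl, add_nsmul, e3, e1]
    refine some_add_some_X (l := r - 1) hc ?_ ?_ ?_ <;>
      simp [tateCurve, addX, addY, negAddY, negY] <;> rw [hb'] <;> ring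
  have h4ne : r * (r - 1) ≠ 0 :=
    x_ne_of_addOrderOf hP 4 1 e4 e1 (by norm_num) (by norm_num)
  -- `5P`
  obtain ⟨h5, e5⟩ : ∃ h5, 5 • P = .some (r * s * (s - 1)) (r * s ^ 2 * (r - s)) h5 := by
    rw [show (5 : ℕ) = 4 + 1 from rfl, add_nsmul, e4, e1]
    refine some_add_some_X (l := r * (s - 1)) h4ne ?_ ?_ ?_
    · rw [hc']; ring
    · simp only [tateCurve, addX]; rw [hb', hc']; ring
    · simp only [tateCurve, addX, addY, negAddY, negY]; rw [hb', hc']; ring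
  have hs1 : s - 1 ≠ 0 := fun h0 ↦
    x_ne_of_addOrderOf hP 5 1 e5 e1 (by norm_num) (by norm_num) (by rw [h0, mul_zero])
  have hrs : s - r ≠ 0 := fun h0 ↦
    x_ne_of_addOrderOf hP 5 2 e5 e2 (by norm_num) (by norm_num)
      (by rw [hb', hc', sub_eq_zero.1 h0]; ring)
  -- `8P = -5P`
  have h8 : ((4 : ℕ) • P + (4 : ℕ) • P : (tateCurve b c).toAffine.Point) = -((5 : ℕ) • P) := by
    have h13 : (4 + 4 + 5 : ℕ) • P = 0 := by
      rw [show (4 + 4 + 5 : ℕ) = 13 from rfl, ← hP]; exact addOrderOf_nsmul_eq_zero _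
    rw [eq_neg_iff_add_eq_zero, ← add_nsmul, ← add_nsmul]
    exact h13
  rw [e4, e5, Point.neg_some] at h8
  have hy4 : r ^ 2 * (c - r + 1) ≠
      (tateCurve b c).toAffine.negY (r * (r - 1)) (r ^ 2 * (c - r + 1)) :=
    ne_negY_of_two_nsmul (h₁ := h4) (by rw [h8]; exact Point.some_ne_zero _)
  have key : ∀ X4 Y4 w N : F, X4 = r * (r - 1) → Y4 = r ^ 2 * (c - r + 1) →
      w = 2 * Y4 + (1 - c) * X4 - r * c →
      N = 3 * X4 ^ 2 - 2 * (r * c) * X4 - (1 - c) * Y4 →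
      N ^ 2 + (1 - c) * N * w + (r * c - 2 * X4 - r * s * (s - 1)) * w ^ 2 = 0 := by
    rintro X4 Y4 w N rfl rfl hw hN
    have hw0 : w ≠ 0 := by
      intro hw0
      apply hy4
      simp only [tateCurve, negY]
      linear_combination hw0 - hw - hb'
    obtain ⟨l, hl⟩ : ∃ l, l = N / w := ⟨_, rfl⟩
    have hlw : l * w = N := by rw [hl, div_mul_cancel₀ _ hw0]
    have hl' : l * (2 * (r ^ 2 * (c - r + 1)) + (tateCurve b c).a₁ * (r * (r - 1))
        + (tateCurve b c).a₃) =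
        3 * (r * (r - 1)) ^ 2 + 2 * (tateCurve b c).a₂ * (r * (r - 1)) + (tateCurve b c).a₄
          - (tateCurve b c).a₁ * (r ^ 2 * (c - r + 1)) := by
      simp only [tateCurve]
      linear_combination hlw - l * hw + hN + (2 * (r * (r - 1)) - l) * hb'
    obtain ⟨h8', e8⟩ := some_add_self (h₁ := h4) hy4 hl' rfl rfl
    rw [e8, Point.some.injEq] at h8
    have hX := h8.1
    simp only [tateCurve, addX] at hX
    rw [← hlw]
    linear_combination w ^ 2 * hX - w ^ 2 * hb'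
  obtain ⟨y, hy⟩ : ∃ y, y = (s - r) / (1 - s) := ⟨_, rfl⟩
  obtain ⟨x, hx⟩ : ∃ x, x = (1 - r) * (1 - s) / (s - r) := ⟨_, rfl⟩
  have hxI : xI b c = x := by rw [hx, hr, hs, xI]
  have hyI : yI b c = y := by rw [hy, hr, hs, yI]
  rw [hxI, hyI, ← hs]
  have h1s : 1 - s ≠ 0 := fun h0 ↦ hs1 (by linear_combination -h0)
  have h1r : 1 - r ≠ 0 := fun h0 ↦ hr1 (by linear_combination -h0)
  have hy0 : y ≠ 0 := hy ▸ div_ne_zero hrs h1s
  have hy1 : y + 1 = (1 - r) / (1 - s) := by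
    rw [hy, div_add_one h1s]; congr 1; ring
  have hy10 : y + 1 ≠ 0 := hy1 ▸ div_ne_zero h1r h1s
  have hx0 : x ≠ 0 := hx ▸ div_ne_zero (mul_ne_zero h1r h1s) hrs
  have hxy : r = 1 - x * y := by rw [hx, hy]; field_simp; ring
  have hxys : s = 1 - x * y / (y + 1) := by
    rw [hy1, hx, hy]; field_simp; ring
  have hr0 : r ≠ 0 := fun h0 ↦ h4ne (by rw [h0, zero_mul])
  have hcur : curve13 x y = 0 := curve13_of_rel hxy hxys hy10 hx0 hy0 hr0 hc' key
  have hx1 : x + 1 ≠ 0 := by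
    intro h0
    obtain rfl : x = -1 := by linear_combination h0
    have : y * (y + 1) = 0 := by
      simp only [curve13] at hcur
      linear_combination hcur
    exact (mul_ne_zero hy0 hy10) this
  have hseq : s = (x + 1 + y) / (x + 1) ^ 2 := by
    rw [hxys, one_sub_div hy10, div_eq_div_iff hy10 (pow_ne_zero 2 hx1)]
    linear_combination -(id_s hcur)
  have hs0 : s ≠ 0 := fun h0 ↦ hc (by rw [hc', h0, zero_mul])
  exact
    { curve := hcur
      x_ne := hx0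
      y_ne := hy0
      x1_ne := hx1
      y1_ne := hy10
      r_ne := hxy ▸ hr0
      S_ne := fun h0 ↦ hs0 (by rw [hseq, h0, zero_div])
      s_eq := hseq
      c_eq := by rw [hc', hxy]; ring
      b_eq := by rw [← hxy, hb'] }

end Fermat.Agent.Small13
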