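import Fermat.Agent.Small13.VarChange
import Fermat.Agent.Small13.Tate13

/-!
Two invariants of a subgroup of order 13: the Hauptmodul `t` of `X₀(13)` and a weight 6
quantity `U` with `U² t = Δ (t² + 6 t + 13)`.
-/

namespace Fermat.Agent.Small13

open WeierstrassCurve WeierstrassCurve.Affine

variable {F : Type*} [Field F]

/-- `a₁` after moving `(x, y)` to the origin. -/
def nA₃ (W : WeierstrassCurve F) (x y : F) : F := 2 * y + W.a₁ * x + W.a₃

/-- The numerator of the tangent slope at `(x, y)`. -/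
def nA₄ (W : WeierstrassCurve F) (x y : F) : F :=
  3 * x ^ 2 + 2 * W.a₂ * x + W.a₄ - W.a₁ * y

/-- The slope of the tangent at `(x, y)`. -/
def nL (W : WeierstrassCurve F) (x y : F) : F := nA₄ W x y / nA₃ W x y

/-- `a₂` in the model with `(x, y)` at the origin and horizontal tangent there. -/
def nB₂ (W : WeierstrassCurve F) (x y : F) : F :=
  W.a₂ + 3 * x - nL W x y * W.a₁ - nL W x y ^ 2

/-- `a₁` in the model with `(x, y)` at the origin and horizontal tangent there. -/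
def nB₁ (W : WeierstrassCurve F) (x y : F) : F := W.a₁ + 2 * nL W x y

/-- The Tate parameter `b` of the point `(x, y)`. -/
def bI (W : WeierstrassCurve F) (x y : F) : F := -nB₂ W x y ^ 3 / nA₃ W x y ^ 2

/-- The Tate parameter `c` of the point `(x, y)`. -/
def cI (W : WeierstrassCurve F) (x y : F) : F := 1 - nB₁ W x y * nB₂ W x y / nA₃ W x y

/-- The scale of the Tate model of the point `(x, y)`. -/
def uI (W : WeierstrassCurve F) (x y : F) : F := nA₃ W x y / nB₂ W x y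

/-- The Hauptmodul of `X₀(13)` as a function on `X₁(13)`. -/
def tXY (x : F) : F := -(x ^ 3 + 4 * x ^ 2 + x - 1) / (x * (x + 1))

/-- The weight 6 invariant as a function on `X₁(13)`. -/
def uXY (x y s : F) : F := y ^ 6 * s ^ 3 * (2 * y + (x ^ 3 + x ^ 2 + 1))

/-- The Hauptmodul of `(W, ⟨(x, y)⟩)`. -/
def tW (W : WeierstrassCurve F) (x y : F) : F := tXY (xI (bI W x y) (cI W x y))

/-- The weight 6 invariant of `(W, ⟨(x, y)⟩)`. -/
def uW (W : WeierstrassCurve F) (x y : F) : F :=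
  uI W x y ^ 6 * uXY (xI (bI W x y) (cI W x y)) (yI (bI W x y) (cI W x y))
    (cI W x y ^ 2 / (bI W x y - cI W x y))

section equivariance

variable {K : Type*} [Field K] (f : F →+* K) (W : WeierstrassCurve F) (x y : F)

lemma map_tW : tW (W.map f) (f x) (f y) = f (tW W x y) := by
  simp [tW, tXY, xI, bI, cI, nB₁, nB₂, nL, nA₃, nA₄, map_ofNat]

lemma map_uW : uW (W.map f) (f x) (f y) = f (uW W x y) := by
  simp [uW, uI, uXY, xI, yI, bI, cI, nB₁, nB₂, nL, nA₃, nA₄, map_ofNat]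

end equivariance

section covariance

variable {W : WeierstrassCurve F} (C : VariableChange F) (x y : F)

lemma nA₃_vc : nA₃ W (vcX C x) (vcY C x y) = (C.u : F) ^ 3 * nA₃ (C • W) x y := by
  simp only [nA₃, vcX, vcY, variableChange_def, Units.val_inv_eq_inv_val]
  field_simp
  ring

lemma nA₄_vc : nA₄ W (vcX C x) (vcY C x y) =
    (C.u : F) ^ 4 * nA₄ (C • W) x y + C.s * ((C.u : F) ^ 3 * nA₃ (C • W) x y) := by
  simp only [nA₄, nA₃, vcX, vcY, variableChange_def, Units.val_inv_eq_inv_val]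
  field_simp
  ring

lemma nL_vc (h : nA₃ (C • W) x y ≠ 0) :
    nL W (vcX C x) (vcY C x y) = (C.u : F) * nL (C • W) x y + C.s := by
  have hu : (C.u : F) ≠ 0 := C.u.ne_zero
  rw [nL, nA₃_vc, nA₄_vc, nL]
  field_simp

lemma nB₂_vc (h : nA₃ (C • W) x y ≠ 0) :
    nB₂ W (vcX C x) (vcY C x y) = (C.u : F) ^ 2 * nB₂ (C • W) x y := by
  rw [nB₂, nB₂, nL_vc C x y h]
  simp only [vcX, variableChange_def, Units.val_inv_eq_inv_val]
  field_simp
  ring

lemma nB₁_vc (h : nA₃ (C • W) x y ≠ 0) :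
    nB₁ W (vcX C x) (vcY C x y) = (C.u : F) * nB₁ (C • W) x y := by
  rw [nB₁, nB₁, nL_vc C x y h]
  simp only [variableChange_def, Units.val_inv_eq_inv_val]
  field_simp
  ring

lemma bI_vc (h : nA₃ (C • W) x y ≠ 0) :
    bI W (vcX C x) (vcY C x y) = bI (C • W) x y := by
  have hu : (C.u : F) ≠ 0 := C.u.ne_zero
  rw [bI, bI, nA₃_vc, nB₂_vc C x y h]
  field_simp

lemma cI_vc (h : nA₃ (C • W) x y ≠ 0) :
    cI W (vcX C x) (vcY C x y) = cI (C • W) x y := by
  have hu : (C.u : F) ≠ 0 := C.u.ne_zero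
  rw [cI, cI, nA₃_vc, nB₂_vc C x y h, nB₁_vc C x y h]
  field_simp

lemma uI_vc (h : nA₃ (C • W) x y ≠ 0) :
    uI W (vcX C x) (vcY C x y) = (C.u : F) * uI (C • W) x y := by
  have hu : (C.u : F) ≠ 0 := C.u.ne_zero
  rw [uI, uI, nA₃_vc, nB₂_vc C x y h]
  field_simp

end covariance

/-- Computations in Tate normal form: passing from `(0, 0)` to its double. -/
lemma tate_double [DecidableEq F] {b c x y s : F} (h : IsX13Point b c x y s) :
    nA₃ (tateCurve b c) b (b * c) ≠ 0 ∧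
    xI (bI (tateCurve b c) b (b * c)) (cI (tateCurve b c) b (b * c)) = -(x + 1) / x ∧
    yI (bI (tateCurve b c) b (b * c)) (cI (tateCurve b c) b (b * c)) = -y / (s * (y + 1)) ∧
    cI (tateCurve b c) b (b * c) ^ 2 /
      (bI (tateCurve b c) b (b * c) - cI (tateCurve b c) b (b * c)) = -x / s ∧
    uI (tateCurve b c) b (b * c) = s ^ 2 * (y + 1) := by
  obtain ⟨hcur, hx, hy, hx1, hy1, hr, hS, hs, hc, hb⟩ := h
  have hs0 : s ≠ 0 := hs ▸ div_ne_zero hS (pow_ne_zero 2 hx1)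
  have hc0 : c ≠ 0 := hc ▸ mul_ne_zero (mul_ne_zero (neg_ne_zero.2 hx) hy) hs0
  have hb0 : b ≠ 0 := hb ▸ mul_ne_zero hr hc0
  have hsy : s * (y + 1) = y + 1 - x * y := by
    rw [hs, div_mul_eq_mul_div, div_eq_iff (pow_ne_zero 2 hx1)]
    linear_combination id_s hcur
  have hA : nA₃ (tateCurve b c) b (b * c) = b * c := by
    simp only [nA₃, tateCurve]; ring
  have hA4 : nA₄ (tateCurve b c) b (b * c) = b * (b - c + c ^ 2) := by
    simp only [nA₄, tateCurve]; ring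
  have hL : nL (tateCurve b c) b (b * c) = c - x * y := by
    rw [nL, hA, hA4, div_eq_iff (mul_ne_zero hb0 hc0), hb]; ring
  have hB2 : nB₂ (tateCurve b c) b (b * c) = (1 - x * y) * (c + x * y) := by
    rw [nB₂, hL]; simp only [tateCurve]; rw [hb]; ring
  have hB1 : nB₁ (tateCurve b c) b (b * c) = 1 + c - 2 * x * y := by
    rw [nB₁, hL]; simp only [tateCurve]; ring
  have hcxy : c + x * y = x ^ 2 * y ^ 2 / (y + 1) := by
    rw [eq_div_iff hy1, hc]; linear_combination (-(x * y)) * hsy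
  have hu : uI (tateCurve b c) b (b * c) = s ^ 2 * (y + 1) := by
    rw [uI, hA, hB2, hcxy, hb, hc]; field_simp
  have hb' : bI (tateCurve b c) b (b * c) =
      -((1 - x * y) * x ^ 2 * y ^ 2) / ((y + 1) ^ 3 * s ^ 4) := by
    rw [bI, hA, hB2, hcxy, hb, hc]; field_simp
  have hc' : cI (tateCurve b c) b (b * c) = (x + 1) * y / (s ^ 2 * (y + 1)) := by
    rw [cI, hA, hB1, hB2, one_sub_div (mul_ne_zero hb0 hc0),
      div_eq_div_iff (mul_ne_zero hb0 hc0) (mul_ne_zero (pow_ne_zero 2 hs0) hy1), hb, hc]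
    linear_combination ((1 - x * y) ^ 2 * (x * y) * s ^ 2) * hsy
  refine ⟨by rw [hA]; exact mul_ne_zero hb0 hc0, ?_⟩
  rw [hb', hc']
  set b' := -((1 - x * y) * x ^ 2 * y ^ 2) / ((y + 1) ^ 3 * s ^ 4) with hb'def
  set c' := (x + 1) * y / (s ^ 2 * (y + 1)) with hc'def
  have hc'0 : c' ≠ 0 := div_ne_zero (mul_ne_zero hx1 hy) (mul_ne_zero (pow_ne_zero 2 hs0) hy1)
  have hr' : b' / c' = 1 - (x + 1) * y / (x * (s * (y + 1))) := by
    have hsd : s * (x + 1) ^ 2 = x + 1 + y := by rw [hs, div_mul_cancel₀ _ (pow_ne_zero 2 hx1)]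
    have hi := id_b' hcur
    rw [← hsd] at hi
    have h0 : -(1 - x * y) * x ^ 3 * y
        - (x + 1) * (y + 1) * s * (x * s * (y + 1) - (x + 1) * y) = 0 :=
      mul_right_cancel₀ (pow_ne_zero 4 hx1) (by rw [zero_mul]; linear_combination hi)
    rw [hb'def, hc'def, div_div_div_eq, one_sub_div (mul_ne_zero hx (mul_ne_zero hs0 hy1)),
      div_eq_div_iff (mul_ne_zero (mul_ne_zero (pow_ne_zero 3 hy1) (pow_ne_zero 4 hs0))
        (mul_ne_zero hx1 hy)) (mul_ne_zero hx (mul_ne_zero hs0 hy1))]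
    linear_combination (y * s ^ 3 * (y + 1) ^ 2) * h0
  have hbc : b' - c' ≠ 0 := by
    have : b' - c' = (b' / c' - 1) * c' := by field_simp
    rw [this, hr']
    refine mul_ne_zero ?_ hc'0
    simp [hx, hx1, hy, hs0, hy1]
  have hs' : c' ^ 2 / (b' - c') = -x / s := by
    have : c' ^ 2 / (b' - c') = c' / (b' / c' - 1) := by field_simp
    rw [this, hr', hc'def]
    field_simp
    ring
  have h1s : 1 - -x / s ≠ 0 := by
    rw [one_sub_div hs0]
    refine div_ne_zero ?_ hs0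
    rw [hs, sub_neg_eq_add, div_add' _ _ _ (pow_ne_zero 2 hx1)]
    refine div_ne_zero ?_ (pow_ne_zero 2 hx1)
    intro h0
    have : y = -(x * (x + 1) ^ 2) - x - 1 := by linear_combination h0
    rw [curve13, this] at hcur
    have : x * (x + 1) ^ 4 = 0 := by linear_combination hcur
    exact mul_ne_zero hx (pow_ne_zero 4 hx1) this
  have hkey : -x ^ 2 * (y + 1) * s - x * s ^ 2 * (y + 1) + (x + 1) * y * s + y * x * (s + x)
      = 0 := by
    have hi : (x + 1 + y) * (y * (1 + x + x ^ 2) - x) + (x + 1) ^ 2 * x ^ 2 * (x * y - 1) = 0 := by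
      rw [curve13] at hcur; linear_combination (1 + x + x ^ 2) * hcur
    have hsd : s * (x + 1) ^ 2 = x + 1 + y := by rw [hs, div_mul_cancel₀ _ (pow_ne_zero 2 hx1)]
    refine mul_right_cancel₀ (pow_ne_zero 2 hx1) ?_
    rw [← hsd] at hi
    rw [zero_mul]
    linear_combination hi + (-x ^ 2 - x * s) * (x + 1) ^ 2 * hsy
  have hsr : -x / s - (1 - (x + 1) * y / (x * (s * (y + 1)))) =
      -y / (s * (y + 1)) * (1 - -x / s) := by
    field_simp
    linear_combination hkey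
  refine ⟨?_, ?_, hs', hu⟩
  · rw [xI, hr', hs', hsr]
    generalize 1 - -x / s = m at h1s ⊢
    field_simp
    ring
  · rw [yI, hr', hs', hsr, mul_div_cancel_right₀ _ h1s]

/-- The discriminant of a Tate normal form with a point of order 13. -/
lemma tate_disc [DecidableEq F] {b c x y s : F} (h : IsX13Point b c x y s) :
    (tateCurve b c).Δ = -(x * (x + 1) * y ^ 12 * s ^ 6 * (x ^ 3 + 4 * x ^ 2 + x - 1)) := by
  obtain ⟨hcur, hx, hy, hx1, hy1, hr, hS, hs, hc, hb⟩ := h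
  have hΔ : (tateCurve b c).Δ =
      b ^ 3 * (16 * b ^ 2 - 8 * b * c ^ 2 - 20 * b * c + b - c * (1 - c) ^ 3) := by
    simp only [tateCurve, WeierstrassCurve.Δ, b₂, b₄, b₆, b₈]; ring
  obtain ⟨D, hD⟩ : ∃ D : F, D = (x + 1) ^ 2 := ⟨_, rfl⟩
  obtain ⟨C, hC⟩ : ∃ C : F, C = -x * y * (x + 1 + y) := ⟨_, rfl⟩
  have hid := id_disc hcur hC hD rfl
  have hrel : y * (y + 1) = x * (x + 1) * (1 - x * y) := by
    rw [curve13] at hcur; linear_combination hcur
  have hD0 : D ≠ 0 := hD ▸ pow_ne_zero 2 hx1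
  have hcC : c = C / D := by rw [hc, hs, hC, hD]; ring
  have hbC : b = (1 - x * y) * C / D := by rw [hb, hcC]; ring
  obtain ⟨G, hG⟩ : ∃ G : F, G = 16 * (1 - x * y) ^ 2 * C * D ^ 2 - 8 * (1 - x * y) * C ^ 2 * D
      - 20 * (1 - x * y) * C * D ^ 2 + (1 - x * y) * D ^ 3 - (D - C) ^ 3 := ⟨_, rfl⟩
  rw [← hG] at hid
  have hr3 : (1 - x * y) ^ 3 * x ^ 3 * (x + 1) ^ 3 = y ^ 3 * (y + 1) ^ 3 := by
    rw [← mul_pow, ← mul_pow, ← mul_pow, hrel]; congr 1; ring
  have key : (1 - x * y) ^ 3 * C ^ 4 * G * (x + 1) ^ 3 =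
      -(x * (x + 1) ^ 6 * y ^ 12 * (x + 1 + y) ^ 6 * (x ^ 3 + 4 * x ^ 2 + x - 1)) := by
    rw [hC]
    linear_combination (x * y ^ 4 * (x + 1 + y) ^ 4 * G) * hr3 +
      (x * y ^ 7 * (x + 1 + y) ^ 4) * hid
  have hΔ' : (tateCurve b c).Δ = (1 - x * y) ^ 3 * C ^ 4 * G / D ^ 7 := by
    rw [hΔ, hbC, hcC, hG]; field_simp
  have key' : (1 - x * y) ^ 3 * C ^ 4 * G =
      -(x * (x + 1) ^ 3 * y ^ 12 * (x + 1 + y) ^ 6 * (x ^ 3 + 4 * x ^ 2 + x - 1)) :=
    mul_right_cancel₀ (pow_ne_zero 3 hx1) (by linear_combination key)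
  rw [hΔ', key', hs, div_eq_iff (pow_ne_zero 7 hD0), hD]
  field_simp

section main

variable [DecidableEq F]

/-- Properties of the invariants at a point of order 13. -/
theorem invariants_of_order {W : WeierstrassCurve F} (hΔ : W.Δ ≠ 0) {x₀ y₀ : F}
    {h₀ : W.toAffine.Nonsingular x₀ y₀}
    (hP : addOrderOf (Point.some x₀ y₀ h₀ : W.toAffine.Point) = 13) :
    tW W x₀ y₀ ≠ 0 ∧ W.Δ * (tW W x₀ y₀ ^ 2 + 6 * tW W x₀ y₀ + 13) =
        uW W x₀ y₀ ^ 2 * tW W x₀ y₀ ∧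
      ∃ x₂ y₂ h₂, 2 • (Point.some x₀ y₀ h₀ : W.toAffine.Point) = .some x₂ y₂ h₂ ∧
        tW W x₂ y₂ = tW W x₀ y₀ ∧ uW W x₂ y₂ = uW W x₀ y₀ := by
  set P₀ : W.toAffine.Point := Point.some x₀ y₀ h₀ with hP₀
  have hy₀ : y₀ ≠ W.toAffine.negY x₀ y₀ := ne_negY_of_two_nsmul (h₁ := h₀) (by
    rw [← two_nsmul]; exact nsmul_ne_zero_of_addOrderOf hP (by norm_num))
  have hA : nA₃ W x₀ y₀ ≠ 0 := by
    intro h0
    apply hy₀
    simp only [negY]
    linear_combination (norm := (simp only [nA₃]; ring1)) h0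
  have hl : nL W x₀ y₀ * (2 * y₀ + W.a₁ * x₀ + W.a₃) =
      3 * x₀ ^ 2 + 2 * W.a₂ * x₀ + W.a₄ - W.a₁ * y₀ := div_mul_cancel₀ _ hA
  obtain ⟨h₂', e₂⟩ := some_add_self (h₁ := h₀) hy₀ hl rfl rfl
  rw [← two_nsmul] at e₂
  have hB : nB₂ W x₀ y₀ ≠ 0 := by
    intro h0
    refine x_ne_of_addOrderOf hP 2 1 e₂ (one_nsmul _) (by norm_num) (by norm_num) ?_
    simp only [addX]
    linear_combination (norm := (simp only [nB₂]; ring1)) -h0
  obtain ⟨C, hC⟩ : ∃ C : VariableChange F, C =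
      ⟨Units.mk0 (uI W x₀ y₀) (div_ne_zero hA hB), x₀, nL W x₀ y₀, y₀⟩ := ⟨_, rfl⟩
  obtain ⟨b, hb⟩ : ∃ b, b = bI W x₀ y₀ := ⟨_, rfl⟩
  obtain ⟨c, hc⟩ : ∃ c, c = cI W x₀ y₀ := ⟨_, rfl⟩
  have hb0 : b ≠ 0 := by
    rw [hb, bI]; exact div_ne_zero (neg_ne_zero.2 (pow_ne_zero 3 hB)) (pow_ne_zero 2 hA)
  have hCW : C • W = tateCurve b c := by
    have heq := (W.toAffine.equation_iff x₀ y₀).1 h₀.1
    have ha4 : nA₄ W x₀ y₀ = nL W x₀ y₀ * nA₃ W x₀ y₀ := (div_mul_cancel₀ _ hA).symm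
    rw [hC, hb, hc, tateCurve, variableChange_def]
    ext <;> simp only [Units.val_inv_eq_inv_val, Units.val_mk0, uI, inv_div]
    · rw [cI]; field_simp; simp only [nB₁]; ring
    · rw [bI]; field_simp; simp only [nB₂]; ring
    · rw [bI]; field_simp; simp only [nA₃]; ring
    · refine mul_eq_zero_of_right _ ?_
      linear_combination (norm := (simp only [nA₄, nA₃]; ring1)) ha4
    · refine mul_eq_zero_of_right _ ?_
      linear_combination -heq
  have hE : (C • W).toAffine.Nonsingular 0 0 := by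
    rw [hCW]
    exact (Affine.nonsingular_iff ..).2
      ⟨(Affine.equation_iff ..).2 (by simp [tateCurve]), Or.inr (by simp [tateCurve, hb0, Ne.symm])⟩
  have hφ : vcHom hΔ C (.some 0 0 hE) = P₀ := by
    rw [vcHom_some, hP₀, Point.some.injEq]
    subst hC
    simp [vcX, vcY]
  have hord : addOrderOf (Point.some 0 0 hE : (C • W).toAffine.Point) = 13 := by
    rw [← addOrderOf_injective (vcHom hΔ C) (vcHom_injective hΔ C), hφ, hP]
  have hord' : ∀ (E : WeierstrassCurve F) (_ : E = C • W) (h : E.toAffine.Nonsingular 0 0),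
      addOrderOf (Point.some 0 0 h : E.toAffine.Point) = 13 := by
    rintro E rfl h; exact hord
  have h13 := isX13Point_of_order hb0 (hord' _ hCW.symm (hCW ▸ hE))
  obtain ⟨x, hx⟩ : ∃ x, x = xI b c := ⟨_, rfl⟩
  obtain ⟨y, hy⟩ : ∃ y, y = yI b c := ⟨_, rfl⟩
  obtain ⟨s, hs⟩ : ∃ s, s = c ^ 2 / (b - c) := ⟨_, rfl⟩
  rw [← hx, ← hy, ← hs] at h13
  have htW : tW W x₀ y₀ = tXY x := by rw [tW, ← hb, ← hc, ← hx]
  have huW : uW W x₀ y₀ = uI W x₀ y₀ ^ 6 * uXY x y s := by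
    rw [uW, ← hb, ← hc, ← hx, ← hy, ← hs]
  obtain ⟨hA2, hx2, hy2, hs2, hu2⟩ := tate_double h13
  have hCu : (C.u : F) = uI W x₀ y₀ := by rw [hC, Units.val_mk0]
  have hΔW : W.Δ = uI W x₀ y₀ ^ 12 * (tateCurve b c).Δ := by
    rw [← hCu, ← hCW, variableChange_Δ, ← mul_assoc, Units.val_inv_eq_inv_val, ← mul_pow,
      mul_inv_cancel₀ C.u.ne_zero, one_pow, one_mul]
  have hΔ13 := tate_disc h13
  obtain ⟨hcur, hx0, hy0, hx10, hy10, -, hS, hseq, -, -⟩ := h13
  have hq : x ^ 3 + 4 * x ^ 2 + x - 1 ≠ 0 := by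
    intro h0
    apply hΔ
    rw [hΔW, hΔ13, h0]
    ring
  refine ⟨?_, ?_, ?_⟩
  · rw [htW, tXY]
    exact div_ne_zero (neg_ne_zero.2 hq) (mul_ne_zero hx0 hx10)
  · rw [htW, huW, hΔW, hΔ13, tXY, uXY]
    rw [curve13] at hcur
    have hN : (2 * y + (x ^ 3 + x ^ 2 + 1)) ^ 2 =
        x ^ 6 + 2 * x ^ 5 + x ^ 4 + 2 * x ^ 3 + 6 * x ^ 2 + 4 * x + 1 := by
      linear_combination 4 * hcur
    simp only [mul_pow, ← pow_mul]
    rw [hN]
    field_simp
    ring
  · have e₂E : ∃ h₂, 2 • (Point.some 0 0 hE : (C • W).toAffine.Point) = .some b (b * c) h₂ := by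
      have : ∀ (E : WeierstrassCurve F) (_ : E = tateCurve b c) (h : E.toAffine.Nonsingular 0 0),
          ∃ h₂, 2 • (Point.some 0 0 h : E.toAffine.Point) = .some b (b * c) h₂ := by
        rintro E rfl h; exact exists_two_nsmul hb0
      exact this _ hCW hE
    obtain ⟨h₂E, e₂E⟩ := e₂E
    refine ⟨vcX C b, vcY C b (b * c), vc_nonsingular hΔ C h₂E, ?_, ?_, ?_⟩
    · rw [← hφ, ← map_nsmul, e₂E, vcHom_some]
    · have hA2' : nA₃ (C • W) b (b * c) ≠ 0 := by rw [hCW]; exact hA2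
      rw [tW, bI_vc C _ _ hA2', cI_vc C _ _ hA2', hCW, hx2, htW, tXY, tXY]
      have : x + 1 ≠ 0 := hx10
      field_simp
      grind
    · have hA2' : nA₃ (C • W) b (b * c) ≠ 0 := by rw [hCW]; exact hA2
      rw [uW, uI_vc C _ _ hA2', bI_vc C _ _ hA2', cI_vc C _ _ hA2', hCW, hx2, hy2, hs2, hu2,
        huW, hCu, uXY, uXY]
      have hs0 : s ≠ 0 := hseq ▸ div_ne_zero hS (pow_ne_zero 2 hx10)
      have hlin : 2 * (-y / (s * (y + 1))) + ((-(x + 1) / x) ^ 3 + (-(x + 1) / x) ^ 2 + 1) =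
          -(2 * y + (x ^ 3 + x ^ 2 + 1)) / x ^ 3 := by
        have hy' : y / (s * (y + 1)) = (y + x ^ 3 - x) / x ^ 3 := by
          rw [hseq, div_mul_eq_mul_div, div_div_eq_mul_div,
            div_eq_div_iff (mul_ne_zero hS hy10) (pow_ne_zero 3 hx0)]
          linear_combination -(id_y' hcur)
        rw [neg_div, hy']
        field_simp
        ring
      rw [hlin]
      field_simp

end main

end Fermat.Agent.Small13
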