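import Fermat.Agent.Small13.Descent
import Fermat.Agent.Small13.Invariant
import Fermat.Agent.EC.Torsion
import Fermat.Agent.Galois.QbarInstances
import Fermat.Prelude.Def_FLTPrelim_CofixedLine
import Mathlib.FieldTheory.Galois.Infinite

/-!
A curve over `ℚ` whose discriminant is a square has no Galois-stable line of 13-torsion.
-/

set_option autoImplicit false

namespace Fermat.Agent.Small13

open WeierstrassCurve WeierstrassCurve.Affine WeierstrassCurve.Affine.Point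

local notation "Qbar" => AlgebraicClosure ℚ

/-- The Hauptmodul on points (junk at `O`). -/
noncomputable def tPt {K : Type*} [Field K] {W : WeierstrassCurve K} : W.toAffine.Point → K
  | .zero => 0
  | .some x y _ => tW W x y

/-- The weight 6 invariant on points (junk at `O`). -/
noncomputable def uPt {K : Type*} [Field K] {W : WeierstrassCurve K} : W.toAffine.Point → K
  | .zero => 0
  | .some x y _ => uW W x y

lemma tPt_uPt_of_order {K : Type*} [Field K] [DecidableEq K] {W : WeierstrassCurve K}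
    (hΔ : W.Δ ≠ 0) {P : W.toAffine.Point} (hP : addOrderOf P = 13) :
    tPt P ≠ 0 ∧ W.Δ * (tPt P ^ 2 + 6 * tPt P + 13) = uPt P ^ 2 * tPt P ∧
      tPt (2 • P) = tPt P ∧ uPt (2 • P) = uPt P := by
  rcases P with _ | ⟨x, y, h⟩
  · rw [← Point.zero_def, addOrderOf_zero] at hP; omega
  · obtain ⟨h1, h2, x₂, y₂, h₂, e, ht, hu⟩ := invariants_of_order hΔ hP
    refine ⟨h1, h2, ?_, ?_⟩ <;> rw [e]
    exacts [ht, hu]

lemma two_pow_generates : ∀ k : ZMod 13, k ≠ 0 → ∃ j : Fin 12, (2 : ZMod 13) ^ (j : ℕ) = k := by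
  decide

lemma invariants_two_pow {K : Type*} [Field K] [DecidableEq K] {W : WeierstrassCurve K}
    (hΔ : W.Δ ≠ 0) {P : W.toAffine.Point} (hP : addOrderOf P = 13) (j : ℕ) :
    addOrderOf (2 ^ j • P) = 13 ∧ tPt (2 ^ j • P) = tPt P ∧ uPt (2 ^ j • P) = uPt P := by
  induction j with
  | zero => simp [hP]
  | succ j ih =>
    obtain ⟨ho, ht, hu⟩ := ih
    obtain ⟨-, -, h2t, h2u⟩ := tPt_uPt_of_order hΔ ho
    rw [pow_succ', mul_nsmul']
    refine ⟨?_, h2t.trans ht, h2u.trans hu⟩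
    rw [Nat.Coprime.addOrderOf_nsmul (by rw [ho]; norm_num), ho]

lemma smul_invariant (W : WeierstrassCurve.Affine ℚ) (σ : Qbar ≃ₐ[ℚ] Qbar)
    (P : (W⁄Qbar).Point) :
    tPt (σ • P) = σ (tPt P) ∧ uPt (σ • P) = σ (uPt P) := by
  have hW : WeierstrassCurve.map (W⁄Qbar) (σ.toAlgHom : Qbar →+* Qbar) = (W⁄Qbar) :=
    Affine.map_baseChange W σ.toAlgHom
  rcases P with _ | ⟨x, y, h⟩
  · exact ⟨(map_zero σ).symm, (map_zero σ).symm⟩
  · constructor
    · have := map_tW (σ.toAlgHom : Qbar →+* Qbar) (W⁄Qbar) x y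
      rw [hW] at this
      exact this
    · have := map_uW (σ.toAlgHom : Qbar →+* Qbar) (W⁄Qbar) x y
      rw [hW] at this
      exact this

/-- A curve over `ℚ` with square discriminant has no Galois-stable line in its 13-torsion. -/
theorem not_isGaloisStable_line13 (W : WeierstrassCurve.Affine ℚ) {D : ℚ} (hD : D ≠ 0)
    (hDsq : W.Δ = D ^ 2) (N : Submodule (ZMod 13) (Submodule.torsionBy ℤ (W⁄Qbar).Point ((13 : ℕ) : ℤ)))
    (hst : IsGaloisStable ℚ N) (hbot : N ≠ ⊥) (htop : N ≠ ⊤) : False := by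
  haveI : Fact (Nat.Prime 13) := ⟨by norm_num⟩
  have hΔW : (W⁄Qbar).Δ = algebraMap ℚ Qbar W.Δ := WeierstrassCurve.map_Δ W _
  have hΔ0 : (W⁄Qbar).Δ ≠ 0 := by
    rw [hΔW, hDsq, map_pow]
    exact pow_ne_zero 2 ((map_ne_zero _).2 hD)
  haveI : (W⁄Qbar).IsElliptic := ⟨isUnit_iff_ne_zero.2 hΔ0⟩
  -- `N` is a line
  have hrk := Fermat.Agent.EC.finrank_torsionBy (K := Qbar) (W := W) (p := 13) (by norm_num)
  haveI : Module.Finite (ZMod 13) (Submodule.torsionBy ℤ (W⁄Qbar).Point ((13 : ℕ) : ℤ)) :=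
    Module.finite_of_finrank_pos (hrk.symm ▸ Nat.two_pos)
  have hlt := Submodule.finrank_lt htop
  have hpos : Module.finrank (ZMod 13) N ≠ 0 := fun h ↦ hbot (Submodule.finrank_eq_zero.1 h)
  have h1 : Module.finrank (ZMod 13) N = 1 := by omega
  obtain ⟨v, hv0, hv⟩ := finrank_eq_one_iff'.1 h1
  set T : Submodule.torsionBy ℤ (W⁄Qbar).Point ((13 : ℕ) : ℤ) := v.1 with hT
  set P : (W⁄Qbar).Point := (T : (W⁄Qbar).Point) with hP
  have hP0 : P ≠ 0 := fun h ↦ hv0 (Subtype.ext (Subtype.ext h))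
  have hP13 : 13 • P = 0 := by
    have := (Submodule.mem_torsionBy_iff _ _).1 T.2
    rw [← natCast_zsmul]
    exact this
  have hord : addOrderOf P = 13 := addOrderOf_eq_prime hP13 hP0
  -- Galois invariance
  have key : ∀ σ : Qbar ≃ₐ[ℚ] Qbar, σ (tPt P) = tPt P ∧ σ (uPt P) = uPt P := by
    intro σ
    obtain ⟨k, hk⟩ := hv ⟨σ • T, hst σ T v.2⟩
    have hk' : σ • P = k.val • P := by
      have h' : (k • T : Submodule.torsionBy ℤ (W⁄Qbar).Point ((13 : ℕ) : ℤ)) = σ • T :=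
        congrArg Subtype.val hk
      rw [← ZMod.natCast_zmod_val k, Nat.cast_smul_eq_nsmul] at h'
      exact (congrArg Subtype.val h').symm
    have hk0 : k ≠ 0 := by
      rintro rfl
      rw [ZMod.val_zero, zero_nsmul] at hk'
      apply hP0
      rw [← one_smul (Qbar ≃ₐ[ℚ] Qbar) P, ← inv_mul_cancel σ, mul_smul, hk', smul_zero]
    obtain ⟨j, hj⟩ := two_pow_generates k hk0
    have hkj : k.val • P = (2 ^ (j : ℕ)) • P := by
      rw [← mod_addOrderOf_nsmul P (2 ^ (j : ℕ)), hord]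
      congr 1
      rw [← ZMod.val_natCast]
      push_cast
      rw [hj]
    obtain ⟨ht, hu⟩ := smul_invariant W σ P
    obtain ⟨-, ht', hu'⟩ := invariants_two_pow hΔ0 hord j
    rw [← ht, ← hu, hk', hkj]
    exact ⟨ht', hu'⟩
  obtain ⟨ht0, hid, -, -⟩ := tPt_uPt_of_order hΔ0 hord
  obtain ⟨t, ht⟩ := (InfiniteGalois.mem_range_algebraMap_iff_fixed (tPt P)).2 fun σ ↦ (key σ).1
  obtain ⟨u, hu⟩ := (InfiniteGalois.mem_range_algebraMap_iff_fixed (uPt P)).2 fun σ ↦ (key σ).2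
  rw [← ht, ← hu, hΔW, hDsq] at hid
  have hidq : D ^ 2 * (t ^ 2 + 6 * t + 13) = u ^ 2 * t := by
    apply (algebraMap ℚ Qbar).injective
    simpa [map_ofNat] using hid
  have ht' : t = 0 := eq_zero_of_sq_eq (w := t * u / D) (by
    rw [div_pow, div_eq_iff (pow_ne_zero 2 hD)]
    linear_combination -t * hidq)
  exact ht0 (by rw [← ht, ht', _root_.map_zero])

/-- The discriminant of the Frey curve is a square. -/
lemma freyCurve_Δ_eq_sq (P : FreyPackage) :
    P.freyCurve.Δ = ((P.a : ℚ) ^ P.p * (P.b : ℚ) ^ P.p * (P.c : ℚ) ^ P.p / 16) ^ 2 := by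
  have h : (P.a : ℚ) ^ P.p + (P.b : ℚ) ^ P.p = (P.c : ℚ) ^ P.p := by exact_mod_cast P.hFLT
  rw [← h]
  simp only [FreyPackage.freyCurve, WeierstrassCurve.Δ, WeierstrassCurve.b₂, WeierstrassCurve.b₄,
    WeierstrassCurve.b₆, WeierstrassCurve.b₈]
  ring

/-- A Frey curve with exponent 13 has no Galois-stable cofixed line. -/
theorem noCofixed13 (P : FreyPackage) (hp : P.p = 13) :
    ¬ HasGaloisStableCofixedLine (K := Qbar) ℚ P.freyCurve P.p := by
  have key : ∀ n : ℕ, n = 13 → ¬ HasGaloisStableCofixedLine (K := Qbar) ℚ P.freyCurve n := by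
    rintro n rfl ⟨N, hst, hbot, htop, -⟩
    refine not_isGaloisStable_line13 P.freyCurve ?_ (freyCurve_Δ_eq_sq P) N hst hbot htop
    simp [P.ha0, P.hb0, P.hc0]
  exact key _ hp

end Fermat.Agent.Small13
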