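import Mathlib

/-!
Descent on the curve `w² = t (t² + 6 t + 13)`: the only rational point has `t = 0`.
-/

namespace Fermat.Agent.Small13

lemma isCoprime_of_forall_prime {a b : ℤ}
    (h : ∀ q : ℕ, q.Prime → (q : ℤ) ∣ a → (q : ℤ) ∣ b → False) : IsCoprime a b := by
  rw [Int.isCoprime_iff_gcd_eq_one]
  by_contra hg
  obtain ⟨q, hq, hqd⟩ := Nat.exists_prime_and_dvd hg
  exact h q hq ((Int.natCast_dvd_natCast.2 hqd).trans (Int.gcd_dvd_left a b))
    ((Int.natCast_dvd_natCast.2 hqd).trans (Int.gcd_dvd_right a b))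

lemma eq_pow_four_of_mul_eq {a b c : ℤ} (hab : IsCoprime a b) (h : a * b = c ^ 4) (ha : 0 ≤ a) :
    ∃ d, a = d ^ 4 := by
  obtain ⟨d, hd⟩ := exists_associated_pow_of_mul_eq_pow' hab h
  rcases Int.associated_iff.1 hd with hd | hd
  · exact ⟨d, hd.symm⟩
  · refine ⟨0, ?_⟩
    have : (0 : ℤ) ≤ d ^ 4 := by positivity
    linarith

lemma eq_sq_of_mul_eq {a b c : ℤ} (hab : IsCoprime a b) (h : a * b = c ^ 2) (ha : 0 ≤ a) :
    ∃ d, a = d ^ 2 := by
  obtain ⟨d, hd⟩ := exists_associated_pow_of_mul_eq_pow' hab h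
  rcases Int.associated_iff.1 hd with hd | hd
  · exact ⟨d, hd.symm⟩
  · refine ⟨0, ?_⟩
    have : (0 : ℤ) ≤ d ^ 2 := by positivity
    linarith

private lemma mod8 : ∀ g h m : ZMod 8, g ^ 4 - h ^ 4 = m ^ 2 + 3 * g ^ 2 * h ^ 2 →
    4 * h = 0 ∨ (4 * g = 0 ∧ 4 * h = 0) := by decide

/-- The quartic `n² = m⁴ + 6 m² v² + 13 v⁴` has only the trivial coprime solutions. -/
theorem quartic_descent : ∀ (N : ℕ) (m v n : ℤ), v.natAbs = N → IsCoprime m v →
    n ^ 2 = m ^ 4 + 6 * m ^ 2 * v ^ 2 + 13 * v ^ 4 → v = 0 := by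
  intro N
  induction N using Nat.strong_induction_on with
  | h N ih =>
  intro m v n hN hmv hn
  by_contra hv
  wlog hn0 : 0 ≤ n generalizing n
  · exact this (-n) (by linear_combination hn) (by linarith [le_of_not_ge hn0])
  -- first step: `n ± (m² + 3v²)` are twice fourth powers
  obtain ⟨A, hA⟩ : (2 : ℤ) ∣ n - (m ^ 2 + 3 * v ^ 2) := by
    have h2 : (2 : ℤ) ∣ (n - (m ^ 2 + 3 * v ^ 2)) ^ 2 :=
      ⟨(m ^ 2 + 3 * v ^ 2) ^ 2 + 2 * v ^ 4 - n * (m ^ 2 + 3 * v ^ 2), by linear_combination hn⟩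
    exact Int.prime_two.dvd_of_dvd_pow h2
  obtain ⟨B, hB⟩ : ∃ B, B = A + (m ^ 2 + 3 * v ^ 2) := ⟨_, rfl⟩
  have hnA : n = A + B := by linarith
  have hAB : A * B = v ^ 4 := by
    subst hnA; subst hB; linarith [hn]
  have hmv2 : 0 < m ^ 2 + 3 * v ^ 2 := by positivity
  have hv4 : 0 < v ^ 4 := by positivity
  have hA0 : 0 ≤ A := by
    by_contra hA0
    rw [not_le] at hA0
    have hB0 : 0 ≤ B := by linarith
    nlinarith [mul_nonpos_iff.2 (Or.inr ⟨hA0.le, hB0⟩)]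
  have hB0 : 0 ≤ B := by linarith
  have hABc : IsCoprime A B := isCoprime_of_forall_prime fun q hq hqA hqB ↦ by
    have hq' : Prime (q : ℤ) := Nat.prime_iff_prime_int.1 hq
    have hqv : (q : ℤ) ∣ v := hq'.dvd_of_dvd_pow (hAB ▸ hqA.mul_right B)
    have hqm : (q : ℤ) ∣ m := by
      refine hq'.dvd_of_dvd_pow (n := 2) ?_
      have : m ^ 2 = B - A - 3 * v * v := by rw [hB]; ring
      rw [this]
      exact dvd_sub (dvd_sub hqB hqA) (Dvd.dvd.mul_left hqv _)
    exact hq'.not_isUnit (hmv.isUnit_of_dvd' hqm hqv)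
  obtain ⟨h, hh⟩ := eq_pow_four_of_mul_eq hABc hAB hA0
  obtain ⟨g, hg⟩ := eq_pow_four_of_mul_eq hABc.symm (by rw [mul_comm]; exact hAB) hB0
  have hgh : v ^ 2 = g ^ 2 * h ^ 2 := by
    have h4 : (v ^ 2) ^ 2 = (g ^ 2 * h ^ 2) ^ 2 := by
      rw [← pow_mul, ← hAB, hh, hg]; ring
    exact (pow_left_inj₀ (by positivity) (by positivity) two_ne_zero).1 h4
  have heq : g ^ 4 - h ^ 4 = m ^ 2 + 3 * g ^ 2 * h ^ 2 := by
    rw [← hh, ← hg, hB]; linear_combination 3 * hgh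
  have hghc : IsCoprime g h := by
    rw [hh, hg] at hABc
    exact ((IsCoprime.pow_iff (by norm_num) (by norm_num)).1 hABc).symm
  -- `g` is odd and `h` is even
  have key := mod8 g h m (by exact_mod_cast congrArg (Int.cast : ℤ → ZMod 8) heq)
  have two_dvd : ∀ z : ℤ, 4 * (z : ZMod 8) = 0 → 2 ∣ z := by
    intro z hz
    have : ((4 * z : ℤ) : ZMod 8) = 0 := by exact_mod_cast hz
    rw [ZMod.intCast_zmod_eq_zero_iff_dvd] at this
    omega
  obtain ⟨k, hk⟩ : 2 ∣ h := by rcases key with h' | ⟨_, h'⟩ <;> exact two_dvd _ h'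
  have hgodd : ¬ (2 : ℤ) ∣ g := fun h2 ↦
    Int.prime_two.not_isUnit (hghc.isUnit_of_dvd' h2 ⟨k, hk⟩)
  subst hk
  have hk0 : k ≠ 0 := by
    rintro rfl
    apply hv
    simpa using hgh
  have hgk : IsCoprime g k := hghc.of_isCoprime_of_dvd_right ⟨2, by ring⟩
  -- second step
  obtain ⟨C, hC⟩ : (2 : ℤ) ∣ g ^ 2 - 6 * k ^ 2 - m := by
    have h2 : (2 : ℤ) ∣ (g ^ 2 - 6 * k ^ 2 - m) ^ 2 :=
      ⟨m ^ 2 + 26 * k ^ 4 - (g ^ 2 - 6 * k ^ 2) * m, by linear_combination heq⟩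
    exact Int.prime_two.dvd_of_dvd_pow h2
  obtain ⟨D, hD⟩ : ∃ D, D = C + m := ⟨_, rfl⟩
  have hCD : C + D = g ^ 2 - 6 * k ^ 2 := by linarith
  have hCDk : C * D = 13 * k ^ 4 := by
    have : m = D - C := by linarith
    subst this
    have : 4 * (C * D) = 4 * (13 * k ^ 4) := by
      linear_combination heq + (C + D + g ^ 2 - 6 * k ^ 2) * hCD
    linarith
  have hCDc : IsCoprime C D := isCoprime_of_forall_prime fun q hq hqC hqD ↦ by
    have hq' : Prime (q : ℤ) := Nat.prime_iff_prime_int.1 hq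
    by_cases hqk : (q : ℤ) ∣ k
    · have hqg : (q : ℤ) ∣ g := by
        refine hq'.dvd_of_dvd_pow (n := 2) ?_
        rw [show g ^ 2 = C + D + 6 * k * k by linear_combination -hCD]
        exact dvd_add (dvd_add hqC hqD) (Dvd.dvd.mul_left hqk _)
      exact hq'.not_isUnit (hgk.isUnit_of_dvd' hqg hqk)
    · have hqq : ((q : ℤ) * q) ∣ k ^ 4 * 13 := by
        rw [mul_comm (k ^ 4), ← hCDk]; exact mul_dvd_mul hqC hqD
      have hcop : IsCoprime ((q : ℤ) * q) (k ^ 4) :=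
        (((hq'.coprime_iff_not_dvd.2 hqk).mul_left (hq'.coprime_iff_not_dvd.2 hqk))).pow_right
      have h13 : ((q * q : ℕ) : ℤ) ∣ ((13 : ℕ) : ℤ) := by
        exact_mod_cast hcop.dvd_of_dvd_mul_left hqq
      have h13' := Int.natCast_dvd_natCast.1 h13
      have hle := Nat.le_of_dvd (by norm_num) h13'
      have : q < 4 := by nlinarith
      interval_cases q <;> revert h13' hq <;> norm_num
  -- split off the factor 13
  obtain ⟨i, j, hij, hgij⟩ : ∃ i j : ℤ, k ^ 2 = i ^ 2 * j ^ 2 ∧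
      g ^ 2 = i ^ 4 + 6 * i ^ 2 * j ^ 2 + 13 * j ^ 4 ∧ IsCoprime i j := by
    have main : ∀ P Q : ℤ, 13 * P * Q = 13 * k ^ 4 → IsCoprime P Q →
        13 * P + Q = g ^ 2 - 6 * k ^ 2 → ∃ i j : ℤ, k ^ 2 = i ^ 2 * j ^ 2 ∧
        g ^ 2 = i ^ 4 + 6 * i ^ 2 * j ^ 2 + 13 * j ^ 4 ∧ IsCoprime i j := by
      intro P Q hPQ hc hs
      have hPQ' : P * Q = k ^ 4 := by linarith
      have hk4 : 0 < k ^ 4 := by positivity
      rcases le_total 0 P with hP | hP
      · have hP' : 0 < P := lt_of_le_of_ne hP (by rintro rfl; linarith)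
        have hQ : 0 ≤ Q := by nlinarith
        obtain ⟨j, rfl⟩ := eq_pow_four_of_mul_eq hc hPQ' hP
        obtain ⟨i, rfl⟩ := eq_pow_four_of_mul_eq hc.symm (by rw [mul_comm]; exact hPQ') hQ
        have hk2 : k ^ 2 = i ^ 2 * j ^ 2 := by
          have h4 : (k ^ 2) ^ 2 = (i ^ 2 * j ^ 2) ^ 2 := by
            rw [← pow_mul, ← hPQ']; ring
          exact (pow_left_inj₀ (by positivity) (by positivity) two_ne_zero).1 h4
        exact ⟨i, j, hk2, by linear_combination -hs + 6 * hk2,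
          ((IsCoprime.pow_iff (by norm_num) (by norm_num)).1 hc).symm⟩
      · exfalso
        have hP' : P < 0 := lt_of_le_of_ne hP (by rintro rfl; linarith)
        have hQ : Q < 0 := by nlinarith
        have hc' : IsCoprime (-P) (-Q) := hc.neg_left.neg_right
        obtain ⟨j, hj⟩ := eq_pow_four_of_mul_eq hc' (by linear_combination hPQ' :
          (-P) * (-Q) = k ^ 4) (by linarith)
        obtain ⟨i, hi⟩ := eq_pow_four_of_mul_eq hc'.symm (by linear_combination hPQ' :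
          (-Q) * (-P) = k ^ 4) (by linarith)
        have hk2 : k ^ 2 = i ^ 2 * j ^ 2 := by
          have h4 : (k ^ 2) ^ 2 = (i ^ 2 * j ^ 2) ^ 2 := by
            calc (k ^ 2) ^ 2 = (-P) * (-Q) := by linear_combination -hPQ'
              _ = _ := by rw [hj, hi]; ring
          exact (pow_left_inj₀ (by positivity) (by positivity) two_ne_zero).1 h4
        nlinarith [sq_nonneg (i ^ 2 - 3 * j ^ 2), sq_nonneg g, sq_nonneg (j ^ 2)]
    have h13 : (13 : ℤ) ∣ C * D := ⟨_, hCDk⟩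
    have p13 : Prime (13 : ℤ) := by norm_num
    rcases p13.dvd_mul.1 h13 with ⟨P, rfl⟩ | ⟨P, rfl⟩
    · exact main P D hCDk (hCDc.of_mul_left_right) hCD
    · exact main P C (by linear_combination hCDk) (hCDc.of_mul_right_right).symm
        (by linarith)
  obtain ⟨hgij, hijc⟩ := hgij
  -- descend
  have hi : i ≠ 0 := by rintro rfl; simp [hk0] at hij
  have hj : j ≠ 0 := by rintro rfl; simp [hk0] at hij
  have hg0 : g ≠ 0 := by rintro rfl; exact hgodd (dvd_zero _)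
  have hlt : j.natAbs < N := by
    rw [← hN, Int.natAbs_lt_iff_sq_lt, hgh]
    have h1 : 1 ≤ g ^ 2 := by have : 0 < g ^ 2 := by positivity
                              omega
    have h2 : 1 ≤ i ^ 2 := by have : 0 < i ^ 2 := by positivity
                              omega
    have h3 : 1 ≤ j ^ 2 := by have : 0 < j ^ 2 := by positivity
                              omega
    have hgi := mul_le_mul h1 h2 (by norm_num) (by positivity)
    nlinarith [hij, mul_le_mul_of_nonneg_right hgi (sq_nonneg j)]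
  exact hj (ih _ hlt i j g rfl hijc hgij)

theorem eq_zero_of_quartic {m v n : ℤ} (h : IsCoprime m v)
    (hn : n ^ 2 = m ^ 4 + 6 * m ^ 2 * v ^ 2 + 13 * v ^ 4) : v = 0 :=
  quartic_descent _ m v n rfl h hn

/-- The only rational point on `w² = t (t² + 6 t + 13)` has `t = 0`. -/
theorem eq_zero_of_sq_eq {t w : ℚ} (h : w ^ 2 = t * (t ^ 2 + 6 * t + 13)) : t = 0 := by
  by_contra ht
  set a := t.num with ha_def
  set d : ℤ := (t.den : ℤ) with hd_def
  have ha : a ≠ 0 := Rat.num_ne_zero.2 ht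
  have hd : 0 < d := by rw [hd_def]; exact_mod_cast t.pos
  have had : IsCoprime a d := by
    rw [Int.isCoprime_iff_gcd_eq_one, Int.gcd, ha_def, hd_def, Int.natAbs_natCast]
    exact t.reduced
  have htd : (a : ℚ) = t * d := by
    rw [ha_def, hd_def, Int.cast_natCast, Rat.mul_den_eq_num]
  obtain ⟨n, hn⟩ : IsSquare (a * d * (a ^ 2 + 6 * a * d + 13 * d ^ 2)) := by
    rw [← Rat.isSquare_intCast_iff]
    refine ⟨w * d ^ 2, ?_⟩
    push_cast
    rw [htd]
    linear_combination -(d : ℚ) ^ 4 * h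
  have hda : IsCoprime d (a ^ 2 + 6 * a * d + 13 * d ^ 2) := by
    have := (had.symm.pow_right (n := 2)).add_mul_left_right (6 * a + 13 * d)
    rwa [show a ^ 2 + d * (6 * a + 13 * d) = a ^ 2 + 6 * a * d + 13 * d ^ 2 by ring] at this
  obtain ⟨v, hv⟩ := eq_sq_of_mul_eq (had.symm.mul_right hda)
    (show d * (a * (a ^ 2 + 6 * a * d + 13 * d ^ 2)) = n ^ 2 by linear_combination hn) hd.le
  have hv0 : v ≠ 0 := by rintro rfl; simp [hv] at hd
  rw [hv] at hn had
  obtain ⟨n', rfl⟩ : v ∣ n := by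
    refine (Int.pow_dvd_pow_iff (n := 2) two_ne_zero).1
      ⟨a * (a ^ 2 + 6 * a * v ^ 2 + 13 * (v ^ 2) ^ 2), by linear_combination -hn⟩
  have hn' : a * (a ^ 2 + 6 * a * v ^ 2 + 13 * v ^ 4) = n' ^ 2 :=
    mul_left_cancel₀ (pow_ne_zero 2 hv0) (by linear_combination hn)
  have hav : IsCoprime a v := (IsCoprime.pow_right_iff (by norm_num)).1 had
  have p13 : Prime (13 : ℤ) := by norm_num
  by_cases h13 : (13 : ℤ) ∣ a
  · obtain ⟨b, hb⟩ := h13
    rw [hb] at hn' hav ha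
    obtain ⟨n'', rfl⟩ : (13 : ℤ) ∣ n' := p13.dvd_of_dvd_pow (n := 2)
      ⟨b * ((13 * b) ^ 2 + 6 * (13 * b) * v ^ 2 + 13 * v ^ 4), by linear_combination -hn'⟩
    have hb' : b * (13 * b ^ 2 + 6 * b * v ^ 2 + v ^ 4) = n'' ^ 2 :=
      mul_left_cancel₀ (show (169 : ℤ) ≠ 0 by norm_num) (by linear_combination hn')
    have hbv : IsCoprime b v := hav.of_mul_left_right
    have hc : IsCoprime b (13 * b ^ 2 + 6 * b * v ^ 2 + v ^ 4) := by
      have := (hbv.pow_right (n := 4)).add_mul_left_right (13 * b + 6 * v ^ 2)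
      rwa [show v ^ 4 + b * (13 * b + 6 * v ^ 2) = 13 * b ^ 2 + 6 * b * v ^ 2 + v ^ 4 by
        ring] at this
    have hb0 : b ≠ 0 := by rintro rfl; simp at ha
    have hbpos : 0 ≤ b := by
      by_contra hneg
      rw [not_le] at hneg
      have : 0 < 13 * b ^ 2 + 6 * b * v ^ 2 + v ^ 4 := by
        have hb2 : 0 < b ^ 2 := by positivity
        nlinarith [sq_nonneg (3 * b + v ^ 2)]
      nlinarith [mul_neg_of_neg_of_pos hneg this]
    obtain ⟨m, rfl⟩ := eq_sq_of_mul_eq hc hb' hbpos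
    have hm : m ≠ 0 := by rintro rfl; simp at hb0
    obtain ⟨n3, rfl⟩ : m ∣ n'' := (Int.pow_dvd_pow_iff (n := 2) two_ne_zero).1 ⟨_, hb'.symm⟩
    refine hm (eq_zero_of_quartic (m := v) (v := m) (n := n3)
      ((IsCoprime.pow_left_iff (by norm_num)).1 hbv).symm ?_)
    exact mul_left_cancel₀ (pow_ne_zero 2 hm) (by linear_combination -hb')
  · have hc : IsCoprime a (a ^ 2 + 6 * a * v ^ 2 + 13 * v ^ 4) := by
      have h' : IsCoprime a (13 * v ^ 4) :=
        (p13.coprime_iff_not_dvd.2 h13).symm.mul_right (hav.pow_right)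
      have := h'.add_mul_left_right (a + 6 * v ^ 2)
      rwa [show 13 * v ^ 4 + a * (a + 6 * v ^ 2) = a ^ 2 + 6 * a * v ^ 2 + 13 * v ^ 4 by
        ring] at this
    have hapos : 0 ≤ a := by
      by_contra hneg
      rw [not_le] at hneg
      have : 0 < a ^ 2 + 6 * a * v ^ 2 + 13 * v ^ 4 := by
        have hv4 : 0 < v ^ 4 := by positivity
        nlinarith [sq_nonneg (a + 3 * v ^ 2)]
      nlinarith [mul_neg_of_neg_of_pos hneg this]
    obtain ⟨m, hm⟩ := eq_sq_of_mul_eq hc hn' hapos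
    rw [hm] at hn' hav ha
    have hm0 : m ≠ 0 := by rintro rfl; simp at ha
    obtain ⟨n3, rfl⟩ : m ∣ n' := (Int.pow_dvd_pow_iff (n := 2) two_ne_zero).1 ⟨_, hn'.symm⟩
    refine hv0 (eq_zero_of_quartic (m := m) (v := v) (n := n3)
      ((IsCoprime.pow_left_iff (by norm_num)).1 hav) ?_)
    exact mul_left_cancel₀ (pow_ne_zero 2 hm0) (by linear_combination -hn')

end Fermat.Agent.Small13
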