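import Mathlib

/-!
Polynomial identities on the curve `y² + (x³ + x² + 1) y = x² + x` (a model of `X₁(13)`).
-/

namespace Fermat.Agent.Small13

/-- The equation of `X₁(13)`. -/
def curve13 {R : Type*} [CommRing R] (x y : R) : R :=
  y ^ 2 + (x ^ 3 + x ^ 2 + 1) * y - x ^ 2 - x

variable {R : Type*} [CommRing R] {x y : R}

lemma id_s (h : curve13 x y = 0) :
    x * y * (x + 1) ^ 2 = (y + 1) * (x ^ 2 + x - y) := by
  unfold curve13 at h
  linear_combination h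

lemma id_s' (h : curve13 x y = 0) :
    (x ^ 3 + x ^ 2 - x + y) * (x + 1 + y) = x ^ 2 * (x + 1) ^ 2 := by
  unfold curve13 at h
  linear_combination h

lemma id_y' (h : curve13 x y = 0) :
    (y + x ^ 3 - x) * (x + 1 + y) * (y + 1) = y * x ^ 3 * (x + 1) ^ 2 := by
  unfold curve13 at h
  linear_combination (1 + y - x^2) * h

lemma id_b' (h : curve13 x y = 0) :
    -(1 - x * y) * x ^ 3 * y * (x + 1) ^ 4 - x * (x + 1) * (y + 1) ^ 2 * (x + 1 + y) ^ 2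
      + (x + 1) ^ 4 * y * (y + 1) * (x + 1 + y) = 0 := by
  unfold curve13 at h
  linear_combination (1 + y + 2 * x + x * y - x * y^2 + x^2 + x^2 * y - x^2 * y^2 + 3 * x^3 * y + 3 * x^4 * y
      + x^5 * y) * h

/-- The last factor of the discriminant, as a function of `B = (x + 1)² b`, `C = (x + 1)² c`. -/
lemma id_disc (h : curve13 x y = 0) {C D r : R} (hC : C = -x * y * (x + 1 + y))
    (hD : D = (x + 1) ^ 2) (hr : r = 1 - x * y) :
    (16 * r ^ 2 * C * D ^ 2 - 8 * r * C ^ 2 * D - 20 * r * C * D ^ 2 + r * D ^ 3 - (D - C) ^ 3)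
      * (y + 1) ^ 3
      + (x + 1) ^ 6 * y ^ 5 * (x + 1 + y) ^ 2 * (x ^ 3 + 4 * x ^ 2 + x - 1) = 0 := by
  unfold curve13 at h
  subst hC hD hr
  linear_combination
    (-y^4 - y^5 + x * y + 2 * x * y^2 - 7 * x * y^4 - 5 * x * y^5 + 4 * x^2 * y - 2 * x^2 *
      y^2 - 33 * x^2 * y^3 - 46 * x^2 * y^4 - 16 * x^2 * y^5 + 6 * x^3 * y - 17 * x^3 * y^2 -
      81 * x^3 * y^3 - 56 * x^3 * y^4 + 4 * x^3 * y^5 + 3 * x^3 * y^6 - x^3 * y^7 + 4 * x^4 *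
      y - 19 * x^4 * y^2 - 54 * x^4 * y^3 + 38 * x^4 * y^4 + 63 * x^4 * y^5 + 13 * x^4 * y^6 +
      x^5 * y - 5 * x^5 * y^2 + 4 * x^5 * y^3 + 96 * x^5 * y^4 + 64 * x^5 * y^5 + 9 * x^5 *
      y^6 + x^6 * y^2 + 11 * x^6 * y^3 + 52 * x^6 * y^4 + 20 * x^6 * y^5 + x^6 * y^6 + x^7 *
      y^3 + 11 * x^7 * y^4 + 2 * x^7 * y^5 + x^8 * y^4) * h

end Fermat.Agent.Small13
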